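/-
P-MW row 790 (MW-GT-CHEV-ADAPT), helper12.

`ChevalleyCoreStatement → ChevalleyAlgStatement`: localise a finitely generated `ℚ`-algebra at a
maximal ideal containing the kernel of `f : B → K`; the residue field of the image of the
localisation in `K` is a quotient of `B ⧸ 𝔮`, which is finite over `ℚ` (Zariski's lemma).
-/
import Fermat.Agent.H68.MW.GTInterfaces

set_option autoImplicit false

noncomputable section

namespace Fermat.Agent.H12.MW

open Polynomial Fermat.Agent.H68.GT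

section

variable {K : Type} [Field K] {B : Type} [CommRing B] (f : B →+* K) (𝔮 : Ideal B)
  [h𝔮 : 𝔮.IsMaximal] (hker : RingHom.ker f ≤ 𝔮)

include hker in
theorem chev_isUnit (y : 𝔮.primeCompl) : IsUnit (f y) := by
  rw [isUnit_iff_ne_zero]
  intro h0
  exact y.2 (hker ((RingHom.mem_ker).mpr h0))

/-- The extension of `f` to the localisation of `B` at `𝔮`. -/
def chevLift : Localization.AtPrime 𝔮 →+* K :=
  IsLocalization.lift (M := 𝔮.primeCompl) (g := f) (chev_isUnit f 𝔮 hker)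

theorem chevLift_algebraMap (b : B) :
    chevLift f 𝔮 hker (algebraMap B (Localization.AtPrime 𝔮) b) = f b :=
  IsLocalization.lift_eq _ b

/-- The image of the localisation, as a local subring of `K`. -/
def chevRing : LocalSubring K := LocalSubring.range (chevLift f 𝔮 hker)

theorem chevLift_mem (x : Localization.AtPrime 𝔮) :
    chevLift f 𝔮 hker x ∈ (chevRing f 𝔮 hker).toSubring := by
  rw [chevRing, LocalSubring.range_toSubring]
  exact ⟨x, rfl⟩

theorem exists_of_mem_chevRing {y : K} (hy : y ∈ (chevRing f 𝔮 hker).toSubring) :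
    ∃ x : Localization.AtPrime 𝔮, chevLift f 𝔮 hker x = y := by
  rw [chevRing, LocalSubring.range_toSubring] at hy
  exact hy

/-- The surjection from the localisation onto the local subring. -/
def chevRho : Localization.AtPrime 𝔮 →+* ↥(chevRing f 𝔮 hker).toSubring :=
  (chevLift f 𝔮 hker).codRestrict (chevRing f 𝔮 hker).toSubring (chevLift_mem f 𝔮 hker)

theorem coe_chevRho (x : Localization.AtPrime 𝔮) :
    ((chevRho f 𝔮 hker x : ↥(chevRing f 𝔮 hker).toSubring) : K) = chevLift f 𝔮 hker x := rfl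

theorem chevRho_surjective : Function.Surjective (chevRho f 𝔮 hker) := by
  rintro ⟨y, hy⟩
  obtain ⟨x, hx⟩ := exists_of_mem_chevRing f 𝔮 hker hy
  exact ⟨x, Subtype.ext hx⟩

theorem chevRho_isLocalHom : IsLocalHom (chevRho f 𝔮 hker) :=
  IsLocalHom.of_surjective _ (chevRho_surjective f 𝔮 hker)

/-- Elements of `𝔮` map to nonunits of the local subring. -/
theorem chevRho_not_isUnit {b : B} (hb : b ∈ 𝔮) :
    ¬ IsUnit (chevRho f 𝔮 hker (algebraMap B (Localization.AtPrime 𝔮) b)) := by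
  intro hu
  have hloc := chevRho_isLocalHom f 𝔮 hker
  have h1 : IsUnit (algebraMap B (Localization.AtPrime 𝔮) b) := hloc.map_nonunit _ hu
  have h2 : algebraMap B (Localization.AtPrime 𝔮) b
      ∈ IsLocalRing.maximalIdeal (Localization.AtPrime 𝔮) :=
    (IsLocalization.AtPrime.to_map_mem_maximal_iff (Localization.AtPrime 𝔮) 𝔮 b).mpr hb
  exact (IsLocalRing.mem_maximalIdeal _).mp h2 h1

/-- The composite `B → B_𝔮 → R → R / 𝔪_R`. -/
def chevTheta : B →+* IsLocalRing.ResidueField ↥(chevRing f 𝔮 hker).toSubring :=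
  (IsLocalRing.residue ↥(chevRing f 𝔮 hker).toSubring).comp
    ((chevRho f 𝔮 hker).comp (algebraMap B (Localization.AtPrime 𝔮)))

theorem chevTheta_apply (b : B) :
    chevTheta f 𝔮 hker b = IsLocalRing.residue ↥(chevRing f 𝔮 hker).toSubring
      (chevRho f 𝔮 hker (algebraMap B (Localization.AtPrime 𝔮) b)) := rfl

theorem chevTheta_eq_zero {b : B} (hb : b ∈ 𝔮) : chevTheta f 𝔮 hker b = 0 := by
  rw [chevTheta_apply, IsLocalRing.residue_eq_zero_iff, IsLocalRing.mem_maximalIdeal]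
  exact chevRho_not_isUnit f 𝔮 hker hb

theorem chevTheta_ne_zero {s : B} (hs : s ∉ 𝔮) : chevTheta f 𝔮 hker s ≠ 0 := by
  have h1 : IsUnit (algebraMap B (Localization.AtPrime 𝔮) s) :=
    IsLocalization.map_units (Localization.AtPrime 𝔮) (⟨s, hs⟩ : 𝔮.primeCompl)
  have h2 : IsUnit (chevTheta f 𝔮 hker s) := by
    rw [chevTheta_apply]
    exact (h1.map (chevRho f 𝔮 hker)).map (IsLocalRing.residue _)
  exact h2.ne_zero

/-- The induced map `B ⧸ 𝔮 → R / 𝔪_R`. -/
def chevThetaBar : B ⧸ 𝔮 →+* IsLocalRing.ResidueField ↥(chevRing f 𝔮 hker).toSubring :=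
  Ideal.Quotient.lift 𝔮 (chevTheta f 𝔮 hker) (fun _ hb => chevTheta_eq_zero f 𝔮 hker hb)

theorem chevThetaBar_mk (b : B) :
    chevThetaBar f 𝔮 hker (Ideal.Quotient.mk 𝔮 b) = chevTheta f 𝔮 hker b :=
  Ideal.Quotient.lift_mk _ _ _

theorem chevThetaBar_surjective : Function.Surjective (chevThetaBar f 𝔮 hker) := by
  let _ : Field (B ⧸ 𝔮) := Ideal.Quotient.field 𝔮
  intro z
  obtain ⟨y, rfl⟩ := IsLocalRing.residue_surjective z
  obtain ⟨x, rfl⟩ := chevRho_surjective f 𝔮 hker y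
  obtain ⟨b, s, rfl⟩ := IsLocalization.exists_mk'_eq 𝔮.primeCompl x
  have hs : chevTheta f 𝔮 hker s ≠ 0 := chevTheta_ne_zero f 𝔮 hker s.2
  have hmul : IsLocalRing.residue ↥(chevRing f 𝔮 hker).toSubring
        (chevRho f 𝔮 hker (IsLocalization.mk' (Localization.AtPrime 𝔮) b s))
      * chevTheta f 𝔮 hker s = chevTheta f 𝔮 hker b := by
    rw [chevTheta_apply, chevTheta_apply, ← map_mul, ← map_mul, IsLocalization.mk'_spec]
  refine ⟨Ideal.Quotient.mk 𝔮 b / Ideal.Quotient.mk 𝔮 (s : B), ?_⟩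
  rw [map_div₀, chevThetaBar_mk, chevThetaBar_mk, ← hmul, mul_div_assoc, div_self hs, mul_one]

end

/-- A field which is a finitely generated `ℚ`-algebra is algebraic over `ℤ`. -/
theorem isAlgebraic_int_of_finiteType {B : Type} [CommRing B] [Algebra ℚ B]
    [Algebra.FiniteType ℚ B] (𝔮 : Ideal B) [𝔮.IsMaximal] (w : B ⧸ 𝔮) : IsAlgebraic ℤ w := by
  let _ : Field (B ⧸ 𝔮) := Ideal.Quotient.field 𝔮
  have hft : Algebra.FiniteType ℚ (B ⧸ 𝔮) :=
    Algebra.FiniteType.of_surjective (Ideal.Quotient.mkₐ ℚ 𝔮) (Ideal.Quotient.mkₐ_surjective ℚ 𝔮)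
  have hfin : Module.Finite ℚ (B ⧸ 𝔮) := finite_of_finite_type_of_isJacobsonRing ℚ (B ⧸ 𝔮)
  have halg : IsAlgebraic ℚ w := Algebra.IsAlgebraic.isAlgebraic w
  exact (IsFractionRing.isAlgebraic_iff ℤ ℚ (B ⧸ 𝔮)).mpr halg

/-- **GT-CHEV-ADAPT.** -/
theorem chevalleyAlg_of_core (h : ChevalleyCoreStatement) : ChevalleyAlgStatement := by
  intro K _ _ B _ _ _ f 𝔮 h𝔮 hker
  have hker' : RingHom.ker (f : B →+* K) ≤ 𝔮 := hker
  have halg : Algebra.IsAlgebraic ℤ
      (IsLocalRing.ResidueField ↥(chevRing (f : B →+* K) 𝔮 hker').toSubring) := by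
    refine ⟨fun z => ?_⟩
    obtain ⟨w, rfl⟩ := chevThetaBar_surjective (f : B →+* K) 𝔮 hker' z
    exact (isAlgebraic_int_of_finiteType 𝔮 w).ringHom_of_comp_eq (RingHom.id ℤ)
      (chevThetaBar (f : B →+* K) 𝔮 hker') Function.injective_id (RingHom.ext_int _ _)
  obtain ⟨V, hle, hV⟩ := h K (chevRing (f : B →+* K) 𝔮 hker') halg
  obtain ⟨hsub, hloc⟩ := hle
  have hmem : ∀ b, f b ∈ V := by
    intro b
    have h1 : f b ∈ (chevRing (f : B →+* K) 𝔮 hker').toSubring := by
      have := chevLift_mem (f : B →+* K) 𝔮 hker' (algebraMap B (Localization.AtPrime 𝔮) b)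
      rwa [chevLift_algebraMap] at this
    exact hsub h1
  refine ⟨V, hmem, ?_, hV⟩
  intro b hb
  rw [ValuationSubring.mem_nonunits_iff_exists_mem_maximalIdeal]
  refine ⟨hmem b, ?_⟩
  rw [IsLocalRing.mem_maximalIdeal]
  intro hu
  have hnu := chevRho_not_isUnit (f : B →+* K) 𝔮 hker' hb
  apply hnu
  have e : Subring.inclusion hsub
      (chevRho (f : B →+* K) 𝔮 hker' (algebraMap B (Localization.AtPrime 𝔮) b))
      = (⟨f b, hmem b⟩ : V) := by
    apply Subtype.ext
    show chevLift (f : B →+* K) 𝔮 hker' (algebraMap B (Localization.AtPrime 𝔮) b) = f b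
    exact chevLift_algebraMap _ _ _ b
  exact hloc.map_nonunit _ (by rw [e]; exact hu)

end Fermat.Agent.H12.MW

end
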