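/-
P-MW row 789 (MW-GT-QVR), helper12.

A valuation ring `V` of an algebraically closed field containing `ℚ`, all of whose elements are
algebraic modulo the maximal ideal, is a test object `IsQbarValRing V`.
-/
import Fermat.Agent.H68.MW.GTInterfaces

set_option autoImplicit false

noncomputable section

namespace Fermat.Agent.H12.MW

open Polynomial Fermat.Agent.H92.MW Fermat.Agent.H68.GT

section

variable {𝒦 : Type} [Field 𝒦] [Algebra ℚ 𝒦] (V : ValuationSubring 𝒦)

/-- (INT) A valuation ring containing `ℚ` contains every element algebraic over `ℚ`. -/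
theorem qvr_mem_of_isAlgebraic (hQ : ∀ q : ℚ, algebraMap ℚ 𝒦 q ∈ V) {c : 𝒦}
    (hc : IsAlgebraic ℚ c) : c ∈ V := by
  have hint : IsIntegral ℚ c := hc.isIntegral
  let φ : ℚ →+* ↥V := (algebraMap ℚ 𝒦).codRestrict V hQ
  have h1 : IsIntegral ↥V c :=
    IsIntegral.map_of_comp_eq φ (RingHom.id 𝒦) (by ext; rfl) hint
  obtain ⟨y, hy⟩ := (IsIntegrallyClosed.isIntegral_iff (R := ↥V) (K := 𝒦)).mp h1
  rw [← hy]
  exact y.2

/-- In a linearly ordered commutative group with zero, a product which is `< 1` has a factor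
which is `< 1`. -/
theorem qvr_exists_lt_one {Γ₀ : Type*} [LinearOrderedCommGroupWithZero Γ₀] (s : Multiset Γ₀)
    (h : s.prod < 1) : ∃ a ∈ s, a < 1 := by
  induction s using Multiset.induction_on with
  | empty => simp at h
  | cons a s ih =>
    rw [Multiset.prod_cons] at h
    by_cases ha : a < 1
    · exact ⟨a, Multiset.mem_cons_self a s, ha⟩
    · have ha' : 1 ≤ a := not_lt.mp ha
      have hs : s.prod < 1 := by
        by_contra hcon
        have h2 : 1 ≤ s.prod := not_lt.mp hcon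
        have h3 : (1 : Γ₀) ≤ a * s.prod := by
          calc (1 : Γ₀) = 1 * 1 := (one_mul 1).symm
            _ ≤ a * s.prod := mul_le_mul' ha' h2
        exact absurd h (not_lt.mpr h3)
      obtain ⟨b, hb, hb1⟩ := ih hs
      exact ⟨b, Multiset.mem_cons_of_mem hb, hb1⟩

/-- A nonzero integer is a unit of a valuation ring containing `ℚ`. -/
theorem qvr_valuation_intCast (hQ : ∀ q : ℚ, algebraMap ℚ 𝒦 q ∈ V) {n : ℤ} (hn : n ≠ 0) :
    V.valuation ((n : ℤ) : 𝒦) = 1 := by
  have hchar : CharZero 𝒦 := algebraRat.charZero 𝒦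
  have h1 : ((n : ℤ) : 𝒦) ∈ V := by
    have := hQ (n : ℚ)
    rwa [map_intCast] at this
  have h2 : (((n : ℤ) : 𝒦))⁻¹ ∈ V := by
    have := hQ ((n : ℚ)⁻¹)
    rwa [map_inv₀, map_intCast] at this
  have hn' : ((n : ℤ) : 𝒦) ≠ 0 := Int.cast_ne_zero.mpr hn
  have e1 : V.valuation ((n : ℤ) : 𝒦) ≤ 1 := (V.valuation_le_one_iff _).mpr h1
  have e2 : V.valuation (((n : ℤ) : 𝒦))⁻¹ ≤ 1 := (V.valuation_le_one_iff _).mpr h2
  rw [map_inv₀] at e2
  have hv0 : V.valuation ((n : ℤ) : 𝒦) ≠ 0 := (Valuation.ne_zero_iff _).mpr hn'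
  have e3 : 1 ≤ V.valuation ((n : ℤ) : 𝒦) := by
    rwa [inv_le_one₀ (zero_lt_iff.mpr hv0)] at e2
  exact le_antisymm e1 e3

end

/-- **GT-QVR.** -/
theorem qbarValRing : QbarValRingStatement := by
  intro 𝒦 _ _ _ V hQ hres
  have hchar : CharZero 𝒦 := algebraRat.charZero 𝒦
  refine ⟨fun c hc => qvr_mem_of_isAlgebraic V hQ hc, fun x hx => ?_⟩
  obtain ⟨p, hp0, hp⟩ := hres x hx
  set P : Polynomial 𝒦 := p.map (Int.castRingHom 𝒦) with hP
  have hinj : Function.Injective (Int.castRingHom 𝒦) := Int.cast_injective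
  have hP0 : P ≠ 0 := (Polynomial.map_ne_zero_iff hinj).mpr hp0
  have hsplit : P.Splits := IsAlgClosed.splits P
  have heval : Polynomial.aeval x p = P.leadingCoeff * (P.roots.map (x - ·)).prod := by
    rw [← hsplit.eval_eq_prod_roots x, hP, Polynomial.eval_map, Polynomial.aeval_def]
    rfl
  have hlc : P.leadingCoeff = ((p.leadingCoeff : ℤ) : 𝒦) := by
    rw [hP, Polynomial.leadingCoeff_map_of_injective hinj]
    rfl
  have hlc1 : V.valuation P.leadingCoeff = 1 := by
    rw [hlc]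
    exact qvr_valuation_intCast V hQ (Polynomial.leadingCoeff_ne_zero.mpr hp0)
  have hlt : V.valuation (Polynomial.aeval x p) < 1 := V.mem_nonunits_iff.mp hp
  rw [heval, map_mul, hlc1, one_mul, map_multiset_prod, Multiset.map_map] at hlt
  obtain ⟨a, ha, ha1⟩ := qvr_exists_lt_one _ hlt
  obtain ⟨r, hr, rfl⟩ := Multiset.mem_map.mp ha
  have hroot : Polynomial.aeval r p = 0 := by
    have h1 : P.eval r = 0 := (Polynomial.mem_roots hP0).mp hr
    rw [hP, Polynomial.eval_map] at h1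
    rw [Polynomial.aeval_def]
    exact h1
  have halg : IsAlgebraic ℚ r := by
    refine ⟨p.map (Int.castRingHom ℚ), ?_, ?_⟩
    · exact (Polynomial.map_ne_zero_iff Int.cast_injective).mpr hp0
    · rw [Polynomial.aeval_def, Polynomial.eval₂_map]
      have hcomp : (algebraMap ℚ 𝒦).comp (Int.castRingHom ℚ) = algebraMap ℤ 𝒦 :=
        RingHom.ext_int _ _
      rw [hcomp]
      exact hroot
  exact ⟨r, halg, V.mem_nonunits_iff.mpr ha1⟩

end Fermat.Agent.H12.MW

end
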