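/-
P-MW row 795 (LPF-TAYLOR), helper12.

Taylor coefficients in a discrete valuation ring `O` over a field `k` with residue field `k`:
every element has a unique expansion `∑ i < n, c_i u ^ i` modulo `u ^ n`, and the coefficients
are `k`-linear.
-/
import Fermat.Agent.H89.MW.LpfInterfaces

set_option autoImplicit false

noncomputable section

namespace Fermat.Agent.H12.MW

section

variable {k O : Type} [Field k] [CommRing O] [IsDomain O] [IsDiscreteValuationRing O]
  [Algebra k O] (u : O)

/-- `c` is a Taylor coefficient vector of `h` modulo `u ^ n`. -/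
def IsTaylor (n : ℕ) (h : O) (c : Fin n → k) : Prop :=
  h - ∑ i : Fin n, algebraMap k O (c i) * u ^ (i : ℕ) ∈ Ideal.span {u ^ n}

theorem isTaylor_exists (hu : Irreducible u)
    (hres : ∀ h : O, ∃ c : k, h - algebraMap k O c ∈ IsLocalRing.maximalIdeal O) (n : ℕ)
    (h : O) : ∃ c : Fin n → k, IsTaylor u n h c := by
  induction n with
  | zero =>
    refine ⟨fun _ => 0, ?_⟩
    unfold IsTaylor
    rw [pow_zero, Ideal.span_singleton_one]
    exact Submodule.mem_top
  | succ n ih =>
    obtain ⟨c, hc⟩ := ih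
    obtain ⟨h', hh'⟩ := Ideal.mem_span_singleton'.mp hc
    obtain ⟨c', hc'⟩ := hres h'
    rw [hu.maximalIdeal_eq] at hc'
    obtain ⟨h'', hh''⟩ := Ideal.mem_span_singleton'.mp hc'
    refine ⟨Fin.snoc c c', ?_⟩
    unfold IsTaylor
    rw [Fin.sum_univ_castSucc]
    simp only [Fin.snoc_castSucc, Fin.snoc_last, Fin.val_castSucc, Fin.val_last]
    rw [Ideal.mem_span_singleton']
    refine ⟨h'', ?_⟩
    have e1 : h' = h'' * u + algebraMap k O c' := by rw [hh'']; ring
    have e2 : h - (∑ i : Fin n, algebraMap k O (c i) * u ^ (i : ℕ) + algebraMap k O c' * u ^ n)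
        = (h - ∑ i : Fin n, algebraMap k O (c i) * u ^ (i : ℕ)) - algebraMap k O c' * u ^ n := by
      ring
    rw [e2, ← hh', e1]
    ring

theorem taylor_zero_of_mem (hu : Irreducible u) :
    ∀ (n : ℕ) (d : Fin n → k),
      ∑ i : Fin n, algebraMap k O (d i) * u ^ (i : ℕ) ∈ Ideal.span {u ^ n} → d = 0 := by
  intro n
  induction n with
  | zero =>
    intro d _
    exact Subsingleton.elim _ _
  | succ n ih =>
    intro d hd
    rw [Fin.sum_univ_succ] at hd
    simp only [Fin.val_zero, pow_zero, mul_one, Fin.val_succ] at hd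
    have hsum : ∑ i : Fin n, algebraMap k O (d i.succ) * u ^ ((i : ℕ) + 1)
        = u * ∑ i : Fin n, algebraMap k O (d i.succ) * u ^ (i : ℕ) := by
      rw [Finset.mul_sum]
      exact Finset.sum_congr rfl (fun i _ => by ring)
    rw [hsum] at hd
    obtain ⟨t, ht⟩ := Ideal.mem_span_singleton'.mp hd
    have h0 : d 0 = 0 := by
      by_contra hne
      have hunit : IsUnit (algebraMap k O (d 0)) := (IsUnit.mk0 _ hne).map (algebraMap k O)
      have hmem : algebraMap k O (d 0) ∈ IsLocalRing.maximalIdeal O := by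
        rw [hu.maximalIdeal_eq, Ideal.mem_span_singleton']
        refine ⟨t * u ^ n - ∑ i : Fin n, algebraMap k O (d i.succ) * u ^ (i : ℕ), ?_⟩
        linear_combination ht
      exact (IsLocalRing.mem_maximalIdeal _).mp hmem hunit
    have hrest : ∑ i : Fin n, algebraMap k O (d i.succ) * u ^ (i : ℕ) ∈ Ideal.span {u ^ n} := by
      rw [Ideal.mem_span_singleton']
      refine ⟨t, ?_⟩
      apply mul_left_cancel₀ hu.ne_zero
      rw [h0, map_zero, zero_add] at ht
      rw [← ht]
      ring
    have hsucc := ih (fun i => d i.succ) hrest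
    funext i
    refine Fin.cases h0 (fun j => ?_) i
    exact congrFun hsucc j

theorem isTaylor_unique (hu : Irreducible u) {n : ℕ} {h : O} {c c' : Fin n → k}
    (hc : IsTaylor u n h c) (hc' : IsTaylor u n h c') : c = c' := by
  have hd : ∑ i : Fin n, algebraMap k O ((c - c') i) * u ^ (i : ℕ) ∈ Ideal.span {u ^ n} := by
    have e : ∑ i : Fin n, algebraMap k O ((c - c') i) * u ^ (i : ℕ)
        = (h - ∑ i : Fin n, algebraMap k O (c' i) * u ^ (i : ℕ))
          - (h - ∑ i : Fin n, algebraMap k O (c i) * u ^ (i : ℕ)) := by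
      simp only [Pi.sub_apply, map_sub, sub_mul, Finset.sum_sub_distrib]
      ring
    rw [e]
    exact sub_mem hc' hc
  exact sub_eq_zero.mp (taylor_zero_of_mem u hu n (c - c') hd)

omit [IsDomain O] [IsDiscreteValuationRing O] in
theorem isTaylor_add {n : ℕ} {h h' : O} {c c' : Fin n → k}
    (hc : IsTaylor u n h c) (hc' : IsTaylor u n h' c') : IsTaylor u n (h + h') (c + c') := by
  unfold IsTaylor at *
  have e : h + h' - ∑ i : Fin n, algebraMap k O ((c + c') i) * u ^ (i : ℕ)
      = (h - ∑ i : Fin n, algebraMap k O (c i) * u ^ (i : ℕ))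
        + (h' - ∑ i : Fin n, algebraMap k O (c' i) * u ^ (i : ℕ)) := by
    simp only [Pi.add_apply, map_add, add_mul, Finset.sum_add_distrib]
    ring
  rw [e]
  exact add_mem hc hc'

omit [IsDomain O] [IsDiscreteValuationRing O] in
theorem isTaylor_smul {n : ℕ} {h : O} {c : Fin n → k} (a : k)
    (hc : IsTaylor u n h c) : IsTaylor u n (a • h) (a • c) := by
  unfold IsTaylor at *
  have e : a • h - ∑ i : Fin n, algebraMap k O ((a • c) i) * u ^ (i : ℕ)
      = algebraMap k O a * (h - ∑ i : Fin n, algebraMap k O (c i) * u ^ (i : ℕ)) := by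
    rw [Algebra.smul_def, mul_sub, Finset.mul_sum]
    congr 1
    refine Finset.sum_congr rfl (fun i _ => ?_)
    rw [Pi.smul_apply, smul_eq_mul, map_mul]
    ring
  rw [e]
  exact Ideal.mul_mem_left _ _ hc

end

/-- **LPF-TAYLOR.** -/
theorem taylor : Fermat.Agent.H89.MW.TaylorStatement := by
  intro k O _ _ _ _ _ u hu hres n
  have hex := isTaylor_exists u hu hres n
  choose τ hτ using hex
  refine ⟨{ toFun := τ
            map_add' := fun h h' =>
              isTaylor_unique u hu (hτ (h + h')) (isTaylor_add u (hτ h) (hτ h'))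
            map_smul' := fun a h =>
              isTaylor_unique u hu (hτ (a • h)) (isTaylor_smul u a (hτ h)) },
    fun h => hτ h, fun h c hc => isTaylor_unique u hu hc (hτ h)⟩

end Fermat.Agent.H12.MW

end
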